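/-
helper89.  P-S56 (Taylor-Wiles primes), block (E) CHEBOTAREV, part 1: valuation subrings of a
Galois extension `L/ℚ` (in practice `L = AlgebraicClosure ℚ`) lying over a rational prime.

* `exists_smul_eq_of_liesOverPrime` (E1): the Galois group acts transitively on the valuation
  subrings over a prime `ℓ`;
* `isFrobeniusAt_iff`, `isFrobeniusAt_smul` (E2): Frobenius elements in elementary terms, and their
  conjugation;
* `exists_finset_eqOn_of_sub_mem` (E3): for a finite subextension `E`, outside a finite set of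
  primes any two automorphisms which are congruent modulo the maximal ideal of `A` agree on `E`
  (so the Frobenius at `A` is unique on `E`, and inertia at `A` acts trivially on `E`).
-/
import Mathlib
import Fermat.Agent.Lib.FrobeniusExistsAt
import Fermat.Agent.Lib.CFT.Profinite.BridgeNormal
import Fermat.Agent.Gateway.S31.RootsOfUnity

set_option autoImplicit false

universe u

open scoped Pointwise

namespace Fermat.Agent.S56x.Cheb

open Fermat.Agent.Lib Fermat.Agent.Lib.CFT.Profinite.Bridge Fermat.Agent.Gateway.S31Red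

/-! ### Frobenius elements in elementary terms -/

section Elementary

variable {K L : Type*} [Field K] [Field L] [Algebra K L]

/-- `φ` is a Frobenius element at `A` iff it stabilises `A` and acts as the `q`-th power map
modulo the maximal ideal. -/
theorem isFrobeniusAt_iff (A : ValuationSubring L) (φ : L ≃ₐ[K] L) (q : ℕ) :
    A.IsFrobeniusAt φ q ↔ φ • A = A ∧ ∀ x ∈ A, φ x - x ^ q ∈ A.nonunits := by
  constructor
  · intro h
    exact ⟨h.mem_decompositionSubgroup, fun x hx => frob_sub_pow_mem_nonunits h hx⟩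
  · rintro ⟨hA, h⟩
    have hmem : φ ∈ A.decompositionSubgroup K := hA
    refine ⟨hmem, fun xbar => ?_⟩
    obtain ⟨x, rfl⟩ := IsLocalRing.residue_surjective xbar
    rw [← IsLocalRing.ResidueField.residue_smul, ← map_pow, ← sub_eq_zero, ← map_sub,
      IsLocalRing.residue_eq_zero_iff, ← ValuationSubring.coe_mem_nonunits_iff]
    exact h x x.2

/-- Conjugation of Frobenius elements. -/
theorem isFrobeniusAt_smul {A : ValuationSubring L} {φ : L ≃ₐ[K] L} {q : ℕ}
    (h : A.IsFrobeniusAt φ q) (τ : L ≃ₐ[K] L) : (τ • A).IsFrobeniusAt (τ * φ * τ⁻¹) q := by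
  rw [isFrobeniusAt_iff] at h ⊢
  obtain ⟨h1, h2⟩ := h
  refine ⟨?_, fun x hx => ?_⟩
  · rw [mul_smul, mul_smul, inv_smul_smul, h1]
  · rw [mem_smul_iff] at hx
    rw [mem_nonunits_smul_iff, map_sub, map_pow]
    have := h2 _ hx
    simpa [AlgEquiv.mul_apply] using this

/-- Two Frobenius elements at the same valuation subring are congruent modulo the maximal
ideal. -/
theorem frobenius_sub_mem_nonunits {A : ValuationSubring L} {φ φ' : L ≃ₐ[K] L} {q : ℕ}
    (h : A.IsFrobeniusAt φ q) (h' : A.IsFrobeniusAt φ' q) {x : L} (hx : x ∈ A) :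
    φ x - φ' x ∈ A.nonunits := by
  have h1 := frob_sub_pow_mem_nonunits h hx
  have h2 := frob_sub_pow_mem_nonunits h' hx
  have : φ x - φ' x = (φ x - x ^ q) - (φ' x - x ^ q) := by ring
  rw [this]
  exact A.nonunits.sub_mem h1 h2

end Elementary

/-! ### Transitivity -/

section Transitive

variable {L : Type u} [Field L] [Algebra ℚ L]

/-- A valuation subring over `ℓ` of an algebraic extension of `ℚ` is the localisation of the ring
of algebraic integers at its prime. -/
theorem mem_iff_exists_integral [Algebra.IsAlgebraic ℚ L] (A : ValuationSubring L) {ℓ : ℕ}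
    (hℓ : ℓ.Prime) (hA : A.LiesOverPrime ℓ) (x : L) :
    x ∈ A ↔ ∃ s : L, IsIntegral ℤ s ∧ s ∉ A.nonunits ∧ IsIntegral ℤ (s * x) := by
  have : CharZero L := algebraRat.charZero L
  constructor
  · intro hx
    have hxalg : IsAlgebraic ℤ x :=
      (IsFractionRing.isAlgebraic_iff ℤ ℚ L).mpr (Algebra.IsAlgebraic.isAlgebraic x)
    exact exists_integral_mul A hℓ hA hx hxalg
  · rintro ⟨s, hs, hsm, hsx⟩
    have h1 : A.valuation s = 1 := by
      rw [ValuationSubring.mem_nonunits_iff, not_lt] at hsm
      exact le_antisymm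
        ((A.valuation_le_one_iff _).mpr (mem_valuationSubring_of_isIntegral A hs)) hsm
    have h3 := (A.valuation_le_one_iff _).mpr (mem_valuationSubring_of_isIntegral A hsx)
    rw [map_mul, h1, one_mul] at h3
    exact (A.valuation_le_one_iff _).mp h3

/-- **(E1)** The Galois group acts transitively on the valuation subrings lying over a prime. -/
theorem exists_smul_eq_of_liesOverPrime [IsGalois ℚ L] {ℓ : ℕ} (hℓ : ℓ.Prime)
    (A A' : ValuationSubring L) (hA : A.LiesOverPrime ℓ) (hA' : A'.LiesOverPrime ℓ) :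
    ∃ τ : L ≃ₐ[ℚ] L, τ • A = A' := by
  have : CharZero L := algebraRat.charZero L
  let _ := galActionIntegers (L := L)
  have := galActionIntegers_smulComm (L := L)
  have := galActionIntegers_isInvariant (L := L)
  let _ : TopologicalSpace (integralClosure ℤ L) := ⊥
  have : DiscreteTopology (integralClosure ℤ L) := ⟨rfl⟩
  have : ContinuousSMul (L ≃ₐ[ℚ] L) (integralClosure ℤ L) := by
    rw [continuousSMul_iff_stabilizer_isOpen]
    intro b
    convert stabilizer_isOpen_of_isIntegral (K := ℚ) (L := L) (b : L) using 1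
    ext σ
    simp only [SetLike.mem_coe, MulAction.mem_stabilizer_iff]
    constructor
    · intro h
      exact congrArg Subtype.val h
    · intro h
      exact Subtype.ext h
  let Q := primeOfValuationSubring A
  let Q' := primeOfValuationSubring A'
  have hQ : Q.IsPrime := primeOfValuationSubring_isPrime A
  have hQ' : Q'.IsPrime := primeOfValuationSubring_isPrime A'
  have hmax : (Ideal.span {(ℓ : ℤ)}).IsMaximal :=
    PrincipalIdealRing.isMaximal_of_irreducible
      (Nat.prime_iff_prime_int.mp hℓ).irreducible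
  have hunder : ∀ (B : ValuationSubring L), B.LiesOverPrime ℓ →
      (primeOfValuationSubring B).under ℤ = Ideal.span {(ℓ : ℤ)} := by
    intro B hB
    have hBp : (primeOfValuationSubring B).IsPrime := primeOfValuationSubring_isPrime B
    have hle : Ideal.span {(ℓ : ℤ)} ≤ (primeOfValuationSubring B).under ℤ := by
      rw [Ideal.span_singleton_le_iff_mem]
      show algebraMap ℤ (integralClosure ℤ L) (ℓ : ℤ) ∈ primeOfValuationSubring B
      rw [mem_primeOfValuationSubring]
      have hB' : (ℓ : L) ∈ B.nonunits := hB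
      simpa using hB'
    have hne : (primeOfValuationSubring B).under ℤ ≠ ⊤ :=
      (Ideal.IsPrime.under ℤ (primeOfValuationSubring B)).ne_top
    exact (hmax.eq_of_le hne hle).symm
  have hPQ : Q.under ℤ = Q'.under ℤ := (hunder A hA).trans (hunder A' hA').symm
  obtain ⟨g, hg⟩ := Algebra.IsInvariant.exists_smul_of_under_eq_of_profinite
    (A := ℤ) (G := L ≃ₐ[ℚ] L) Q Q' hPQ
  -- `hg : Q' = g • Q`
  have hkey : ∀ b : L, IsIntegral ℤ b → (g b ∈ A'.nonunits ↔ b ∈ A.nonunits) := by
    intro b hb
    have h1 : (⟨g b, hb.map g⟩ : integralClosure ℤ L) ∈ Q' ↔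
        (⟨b, hb⟩ : integralClosure ℤ L) ∈ Q := by
      rw [hg, Ideal.mem_pointwise_smul_iff_inv_smul_mem]
      have : g⁻¹ • (⟨g b, hb.map g⟩ : integralClosure ℤ L) = ⟨b, hb⟩ := by
        apply Subtype.ext
        show g⁻¹ (g b) = b
        exact g.symm_apply_apply b
      rw [this]
    exact h1
  refine ⟨g, ?_⟩
  ext x
  rw [mem_smul_iff, mem_iff_exists_integral A hℓ hA, mem_iff_exists_integral A' hℓ hA']
  constructor
  · rintro ⟨s, hs, hsm, hsx⟩
    refine ⟨g s, hs.map g, fun h => hsm ((hkey s hs).mp h), ?_⟩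
    have : g s * x = g (s * g.symm x) := by
      rw [map_mul, AlgEquiv.apply_symm_apply]
    rw [this]
    exact hsx.map g
  · rintro ⟨s, hs, hsm, hsx⟩
    refine ⟨g.symm s, hs.map g.symm, fun h => hsm ?_, ?_⟩
    · have := (hkey (g.symm s) (hs.map g.symm)).mpr h
      rwa [AlgEquiv.apply_symm_apply] at this
    · rw [← map_mul]
      exact hsx.map g.symm

end Transitive

/-! ### Uniqueness of Frobenius on a finite subextension, away from finitely many primes -/

section Unique

variable {L : Type u} [Field L] [Algebra ℚ L]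

/-- A nonzero algebraic number is a unit at all valuation subrings over almost all primes
(only the "not in the maximal ideal" half is needed). -/
theorem exists_finset_not_mem_nonunits [Algebra.IsAlgebraic ℚ L] {d : L} (hd0 : d ≠ 0) :
    ∃ T : Finset ℕ, ∀ q : ℕ, q.Prime → q ∉ T → ∀ A : ValuationSubring L, A.LiesOverPrime q →
      d ∉ A.nonunits := by
  have hdalg : IsAlgebraic ℤ d⁻¹ :=
    (IsFractionRing.isAlgebraic_iff ℤ ℚ L).mpr (Algebra.IsAlgebraic.isAlgebraic d⁻¹)
  obtain ⟨n, hn0, hn⟩ := hdalg.exists_integral_multiple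
  refine ⟨n.natAbs.primeFactors, fun q hq hqT A hA hd => ?_⟩
  have hqn : ¬ (q : ℤ) ∣ n := by
    intro hdvd
    apply hqT
    rw [Nat.mem_primeFactors]
    refine ⟨hq, ?_, by simpa using hn0⟩
    exact Int.natCast_dvd_natCast.mp (by simpa using hdvd)
  have h1 : (n : L) ∉ A.nonunits := intCast_not_mem_nonunits A hq hA hqn
  apply h1
  have h2 : (n : L) = d * (n • d⁻¹) := by
    rw [zsmul_eq_mul, mul_left_comm, mul_inv_cancel₀ hd0, mul_one]
  rw [h2]
  exact mul_mem_nonunits_of_mem A hd (mem_valuationSubring_of_isIntegral A hn)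

/-- For an algebraic integer `β`: outside a finite set of primes, two automorphisms congruent
modulo the maximal ideal of `A` agree at `β`. -/
theorem exists_finset_eq_of_sub_mem_of_isIntegral [Algebra.IsAlgebraic ℚ L] {β : L}
    (hβ : IsIntegral ℤ β) :
    ∃ T : Finset ℕ, ∀ q : ℕ, q.Prime → q ∉ T → ∀ A : ValuationSubring L, A.LiesOverPrime q →
      ∀ φ φ' : L ≃ₐ[ℚ] L, (∀ x ∈ A, φ x - φ' x ∈ A.nonunits) → φ β = φ' β := by
  classical
  have hex : ∀ d : L, ∃ T : Finset ℕ, d ≠ 0 → ∀ q : ℕ, q.Prime → q ∉ T →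
      ∀ A : ValuationSubring L, A.LiesOverPrime q → d ∉ A.nonunits := by
    intro d
    by_cases hd : d = 0
    · exact ⟨∅, fun h => (h hd).elim⟩
    · obtain ⟨T, hT⟩ := exists_finset_not_mem_nonunits hd
      exact ⟨T, fun _ => hT⟩
  choose T hT using hex
  set f := minpoly ℤ β with hf
  have hfm : f.Monic := minpoly.monic hβ
  have hf0 : f.map (algebraMap ℤ L) ≠ 0 := (hfm.map _).ne_zero
  set R : Finset L := (f.map (algebraMap ℤ L)).roots.toFinset with hR
  have hroot : ∀ φ : L ≃ₐ[ℚ] L, φ β ∈ R := by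
    intro φ
    rw [hR, Multiset.mem_toFinset, Polynomial.mem_roots hf0, Polynomial.IsRoot.def,
      Polynomial.eval_map_algebraMap]
    have h1 : Polynomial.aeval β f = 0 := minpoly.aeval ℤ β
    have h2 : Polynomial.aeval (φ β) f = φ (Polynomial.aeval β f) := by
      have := Polynomial.aeval_algHom_apply (φ.toAlgHom.restrictScalars ℤ) β f
      exact this
    rw [h2, h1, map_zero]
  refine ⟨R.biUnion fun a => R.biUnion fun b => T (a - b), fun q hq hqT A hA φ φ' hcong => ?_⟩
  by_contra hne
  have hd0 : φ β - φ' β ≠ 0 := sub_ne_zero.mpr hne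
  have hqT' : q ∉ T (φ β - φ' β) := by
    intro hmem
    apply hqT
    rw [Finset.mem_biUnion]
    refine ⟨φ β, hroot φ, ?_⟩
    rw [Finset.mem_biUnion]
    exact ⟨φ' β, hroot φ', hmem⟩
  exact hT _ hd0 q hq hqT' A hA (hcong β (mem_valuationSubring_of_isIntegral A hβ))

/-- The same for an arbitrary element. -/
theorem exists_finset_eq_of_sub_mem [Algebra.IsAlgebraic ℚ L] (y : L) :
    ∃ T : Finset ℕ, ∀ q : ℕ, q.Prime → q ∉ T → ∀ A : ValuationSubring L, A.LiesOverPrime q →
      ∀ φ φ' : L ≃ₐ[ℚ] L, (∀ x ∈ A, φ x - φ' x ∈ A.nonunits) → φ y = φ' y := by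
  have : CharZero L := algebraRat.charZero L
  have hyalg : IsAlgebraic ℤ y :=
    (IsFractionRing.isAlgebraic_iff ℤ ℚ L).mpr (Algebra.IsAlgebraic.isAlgebraic y)
  obtain ⟨n, hn0, hn⟩ := hyalg.exists_integral_multiple
  obtain ⟨T, hT⟩ := exists_finset_eq_of_sub_mem_of_isIntegral hn
  refine ⟨T, fun q hq hqT A hA φ φ' hcong => ?_⟩
  have h1 := hT q hq hqT A hA φ φ' hcong
  rw [zsmul_eq_mul, map_mul, map_mul, map_intCast, map_intCast] at h1
  have hn0' : (n : L) ≠ 0 := by exact_mod_cast hn0
  exact mul_left_cancel₀ hn0' h1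

/-- **(E3)** For a finite subextension `E`: outside a finite set of primes, two automorphisms
congruent modulo the maximal ideal of `A` agree on `E`. -/
theorem exists_finset_eqOn_of_sub_mem [Algebra.IsAlgebraic ℚ L] (E : IntermediateField ℚ L)
    [FiniteDimensional ℚ E] :
    ∃ T : Finset ℕ, ∀ q : ℕ, q.Prime → q ∉ T → ∀ A : ValuationSubring L, A.LiesOverPrime q →
      ∀ φ φ' : L ≃ₐ[ℚ] L, (∀ x ∈ A, φ x - φ' x ∈ A.nonunits) → ∀ x ∈ E, φ x = φ' x := by
  classical
  obtain ⟨s, hs⟩ := (Module.finite_def (R := ℚ) (M := E)).mp inferInstance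
  choose T hT using fun y : L => exists_finset_eq_of_sub_mem y
  refine ⟨s.biUnion fun y => T (y : L), fun q hq hqT A hA φ φ' hcong x hx => ?_⟩
  have key : ∀ y : E, y ∈ Submodule.span ℚ (s : Set E) → φ (y : L) = φ' (y : L) := by
    intro y hy
    induction hy using Submodule.span_induction with
    | mem y hy =>
      have hqy : q ∉ T (y : L) := by
        intro hmem
        apply hqT
        rw [Finset.mem_biUnion]
        exact ⟨y, hy, hmem⟩
      exact hT (y : L) q hq hqy A hA φ φ' hcong
    | zero => simp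
    | add a b _ _ ha hb =>
      rw [IntermediateField.coe_add, map_add, map_add, ha, hb]
    | smul c a _ ha =>
      rw [IntermediateField.coe_smul, map_smul, map_smul, ha]
  have hx' : (⟨x, hx⟩ : E) ∈ Submodule.span ℚ (s : Set E) := by
    rw [hs]; trivial
  exact key ⟨x, hx⟩ hx'

/-- Outside a finite set of primes, the Frobenius at `A` is unique on `E` and the inertia group
of `A` acts trivially on `E`. -/
theorem exists_finset_frobenius_unique [Algebra.IsAlgebraic ℚ L] (E : IntermediateField ℚ L)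
    [FiniteDimensional ℚ E] :
    ∃ T : Finset ℕ, ∀ q : ℕ, q.Prime → q ∉ T → ∀ A : ValuationSubring L, A.LiesOverPrime q →
      (∀ φ φ' : L ≃ₐ[ℚ] L, A.IsFrobeniusAt φ q → A.IsFrobeniusAt φ' q → ∀ x ∈ E, φ x = φ' x) ∧
      (∀ ι ∈ A.inertiaSubgroupIn ℚ, ∀ x ∈ E, ι x = x) := by
  obtain ⟨T, hT⟩ := exists_finset_eqOn_of_sub_mem E
  refine ⟨T, fun q hq hqT A hA => ⟨fun φ φ' hφ hφ' => ?_, fun ι hι => ?_⟩⟩
  · exact hT q hq hqT A hA φ φ' fun x hx => frobenius_sub_mem_nonunits hφ hφ' hx
  · have := hT q hq hqT A hA ι 1 fun x hx => by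
      simpa using sub_mem_nonunits_of_mem_inertia hι hx
    simpa using this

end Unique

end Fermat.Agent.S56x.Cheb
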