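/-
helper89.  P-S56 (Taylor-Wiles primes), block (E) CHEBOTAREV, part 4: **(D)** the image of the
local Galois group `Gal(ℚ_q bar/ℚ_q)` is dense in the decomposition group of the `q`-adic place
`padicPlace q` of `ℚbar`:  every `σ` stabilising `padicPlace q` agrees on any finite extension
`F/ℚ` with `localGaloisToGlobal q h` for some local automorphism `h`.

Proof: by `Lib/CFT/Profinite/BridgePlaces.placeAt_eq_iff` it suffices to show that the two
maximal ideals `ker (ℚ_q ⊗ F → Ωq, a ⊗ x ↦ a · ι (g x))`, `g = 1, σ`, coincide; an element of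
`ℚ_q ⊗ F` is approximated by elements `y ∈ F` simultaneously for both maps, and `σ` preserves the
`q`-adic size of `ι y` (in the form `‖ι y‖ ≤ q^(-k) → ‖ι (σ y)‖ ≤ q^(-k)`).
-/
import Mathlib
import Fermat.Agent.Lib.CFT.Profinite.BridgePlaces

set_option autoImplicit false

open scoped TensorProduct Pointwise NNReal

namespace Fermat.Agent.S56x.Cheb

open Fermat.Agent.Lib.CFT.Profinite.Bridge

local notation "Qb" => AlgebraicClosure ℚ
local notation "GQ" => (AlgebraicClosure ℚ ≃ₐ[ℚ] AlgebraicClosure ℚ)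

variable (q : ℕ) [Fact q.Prime]

local notation "Ωq" => PadicAlgCl q
local notation "Gq" => (PadicAlgCl q ≃ₐ[ℚ_[q]] PadicAlgCl q)

theorem norm_natCast_padicAlgCl : ‖((q : ℕ) : Ωq)‖ = (q : ℝ)⁻¹ := by
  have h := PadicAlgCl.norm_extends q ((q : ℕ) : ℚ_[q])
  rw [Padic.norm_p] at h
  have h2 : ((q : ℕ) : Ωq) = algebraMap ℚ_[q] Ωq ((q : ℕ) : ℚ_[q]) :=
    (map_natCast (algebraMap ℚ_[q] Ωq) q).symm
  rw [h2]
  exact h

theorem inv_natCast_pos : (0 : ℝ) < (q : ℝ)⁻¹ :=
  inv_pos.mpr (by exact_mod_cast (Fact.out : q.Prime).pos)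

/-- An automorphism stabilising `padicPlace q` preserves the `q`-adic size. -/
theorem norm_padicEmbedding_apply_le (σ : GQ) (hσ : σ • padicPlace q = padicPlace q) (y : Qb)
    (k : ℕ) (h : ‖padicEmbedding q y‖ ≤ ((q : ℝ)⁻¹) ^ k) :
    ‖padicEmbedding q (σ y)‖ ≤ ((q : ℝ)⁻¹) ^ k := by
  have hpos : (0 : ℝ) < ((q : ℝ)⁻¹) ^ k := pow_pos (inv_natCast_pos q) k
  set z : Qb := y / (q : Qb) ^ k with hz
  have hzmem : z ∈ padicPlace q := by
    rw [mem_padicPlace_iff, ← NNReal.coe_le_coe, coe_nnnorm, NNReal.coe_one, hz, map_div₀,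
      map_pow, map_natCast, norm_div, norm_pow, norm_natCast_padicAlgCl]
    exact div_le_one_of_le₀ h hpos.le
  have hσz : σ z ∈ padicPlace q := by
    have h1 : σ z ∈ σ • padicPlace q := by
      rw [mem_smul_iff, AlgEquiv.symm_apply_apply]
      exact hzmem
    rwa [hσ] at h1
  have h2 : σ z = σ y / (q : Qb) ^ k := by
    rw [hz, map_div₀, map_pow, map_natCast]
  rw [mem_padicPlace_iff, ← NNReal.coe_le_coe, coe_nnnorm, NNReal.coe_one, h2, map_div₀,
    map_pow, map_natCast, norm_div, norm_pow, norm_natCast_padicAlgCl, div_le_one hpos] at hσz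
  exact hσz

variable (F : IntermediateField ℚ Qb)

local instance instTowerQqPadic_dd : IsScalarTower ℚ ℚ_[q] (PadicAlgCl q) :=
  IsScalarTower.of_algebraMap_eq' (Subsingleton.elim _ _)

/-- Simultaneous approximation of an element of `ℚ_q ⊗ F` by elements of `F`, for the two maps
`locHom 1` and `locHom σ`. -/
theorem exists_approx (σ : GQ) (e : ℚ_[q] ⊗[ℚ] F) : ∀ k : ℕ, ∃ y : F,
    ‖locHom q F 1 e - padicEmbedding q (y : Qb)‖ ≤ ((q : ℝ)⁻¹) ^ k ∧
    ‖locHom q F σ e - padicEmbedding q (σ (y : Qb))‖ ≤ ((q : ℝ)⁻¹) ^ k := by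
  have hc := inv_natCast_pos q
  induction e using TensorProduct.induction_on with
  | zero =>
    intro k
    refine ⟨0, ?_, ?_⟩ <;> simp
  | tmul a x =>
    intro k
    set C : ℝ := ‖padicEmbedding q (x : Qb)‖ + ‖padicEmbedding q (σ (x : Qb))‖ + 1 with hC
    have hCpos : 0 < C := by positivity
    have hδ : 0 < ((q : ℝ)⁻¹) ^ k / C := div_pos (pow_pos hc k) hCpos
    obtain ⟨r, hr⟩ := Padic.rat_dense q a hδ
    have key : ∀ g : GQ, ‖padicEmbedding q (g (x : Qb))‖ ≤ C →
        ‖locHom q F g (a ⊗ₜ[ℚ] x) - padicEmbedding q (g ((r • x : F) : Qb))‖ ≤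
          ((q : ℝ)⁻¹) ^ k := by
      intro g hg
      have h1 : ((r • x : F) : Qb) = (r : Qb) * (x : Qb) := by
        rw [IntermediateField.coe_smul, Algebra.smul_def, eq_ratCast]
      have h2 : padicEmbedding q (g ((r • x : F) : Qb)) =
          algebraMap ℚ_[q] Ωq (r : ℚ_[q]) * padicEmbedding q (g (x : Qb)) := by
        rw [h1, map_mul, map_mul, map_ratCast, map_ratCast, map_ratCast]
      rw [locHom_tmul, h2, ← sub_mul, ← map_sub, norm_mul, norm_algebraMap', ]
      calc ‖a - (r : ℚ_[q])‖ * ‖padicEmbedding q (g (x : Qb))‖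
          ≤ (((q : ℝ)⁻¹) ^ k / C) * C :=
            mul_le_mul hr.le hg (norm_nonneg _) hδ.le
        _ = ((q : ℝ)⁻¹) ^ k := div_mul_cancel₀ _ hCpos.ne'
    refine ⟨r • x, ?_, ?_⟩
    · have := key 1 (by
        rw [hC]
        show ‖padicEmbedding q (x : Qb)‖ ≤ _
        linarith [norm_nonneg (padicEmbedding q (σ (x : Qb)))])
      exact this
    · exact key σ (by
        rw [hC]
        linarith [norm_nonneg (padicEmbedding q (x : Qb))])
  | add e₁ e₂ h₁ h₂ =>
    intro k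
    obtain ⟨y₁, h11, h12⟩ := h₁ (k + 1)
    obtain ⟨y₂, h21, h22⟩ := h₂ (k + 1)
    have h2c : 2 * ((q : ℝ)⁻¹) ^ (k + 1) ≤ ((q : ℝ)⁻¹) ^ k := by
      have hq2 : (2 : ℝ) ≤ q := by exact_mod_cast (Fact.out : q.Prime).two_le
      have : 2 * (q : ℝ)⁻¹ ≤ 1 := by
        rw [← div_eq_mul_inv, div_le_one (by linarith)]
        exact hq2
      calc 2 * ((q : ℝ)⁻¹) ^ (k + 1) = ((q : ℝ)⁻¹) ^ k * (2 * (q : ℝ)⁻¹) := by ring
        _ ≤ ((q : ℝ)⁻¹) ^ k * 1 := mul_le_mul_of_nonneg_left this (pow_pos hc k).le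
        _ = ((q : ℝ)⁻¹) ^ k := mul_one _
    refine ⟨y₁ + y₂, ?_, ?_⟩
    · have : locHom q F 1 (e₁ + e₂) - padicEmbedding q ((y₁ + y₂ : F) : Qb) =
          (locHom q F 1 e₁ - padicEmbedding q (y₁ : Qb)) +
            (locHom q F 1 e₂ - padicEmbedding q (y₂ : Qb)) := by
        rw [map_add, IntermediateField.coe_add, map_add]; ring
      rw [this]
      exact (norm_add_le _ _).trans (by linarith)
    · have : locHom q F σ (e₁ + e₂) - padicEmbedding q (σ ((y₁ + y₂ : F) : Qb)) =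
          (locHom q F σ e₁ - padicEmbedding q (σ (y₁ : Qb))) +
            (locHom q F σ e₂ - padicEmbedding q (σ (y₂ : Qb))) := by
        rw [map_add, IntermediateField.coe_add, map_add, map_add]; ring
      rw [this]
      exact (norm_add_le _ _).trans (by linarith)

/-- The kernel of `locHom 1` is contained in the kernel of `locHom σ` when `σ` stabilises
`padicPlace q`. -/
theorem ker_locHom_one_le (σ : GQ) (hσ : σ • padicPlace q = padicPlace q) :
    RingHom.ker (locHom q F 1) ≤ RingHom.ker (locHom q F σ) := by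
  intro e he
  rw [RingHom.mem_ker] at he ⊢
  have hc := inv_natCast_pos q
  have hc1 : (q : ℝ)⁻¹ < 1 := by
    apply inv_lt_one_of_one_lt₀
    exact_mod_cast (Fact.out : q.Prime).one_lt
  by_contra hne
  have hpos : 0 < ‖locHom q F σ e‖ := norm_pos_iff.mpr hne
  obtain ⟨k, hk⟩ := exists_pow_lt_of_lt_one (half_pos hpos) hc1
  obtain ⟨y, h1, h2⟩ := exists_approx q F σ e k
  rw [he, zero_sub, norm_neg] at h1
  have h3 := norm_padicEmbedding_apply_le q σ hσ (y : Qb) k h1
  have h4 : ‖locHom q F σ e‖ ≤ ‖locHom q F σ e - padicEmbedding q (σ (y : Qb))‖ +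
      ‖padicEmbedding q (σ (y : Qb))‖ := by
    have := norm_add_le (locHom q F σ e - padicEmbedding q (σ (y : Qb)))
      (padicEmbedding q (σ (y : Qb)))
    rwa [sub_add_cancel] at this
  linarith

theorem isMaximal_ker_locHom [FiniteDimensional ℚ F] (g : GQ) :
    (RingHom.ker (locHom q F g)).IsMaximal :=
  isMaximal_ker_algHom (K := ℚ_[q]) (E := ℚ_[q] ⊗[ℚ] F) (Ω := PadicAlgCl q) (locHom q F g)

theorem placeAt_eq_of_ker_eq [FiniteDimensional ℚ F] (σ : GQ)
    (heq : RingHom.ker (locHom q F 1) = RingHom.ker (locHom q F σ)) :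
    placeAt q F 1 = placeAt q F σ := by
  unfold placeAt
  exact MaximalSpectrum.ext heq

/-- **(D)** Density of the local Galois group in the decomposition group of `padicPlace q`. -/
theorem exists_local_mul_of_mem_decomposition [FiniteDimensional ℚ F] (σ : GQ)
    (hσ : σ ∈ (padicPlace q).decompositionSubgroup ℚ) :
    ∃ h : Gq, ∃ s ∈ F.fixingSubgroup, σ = localGaloisToGlobal q h * s := by
  have hσ' : σ • padicPlace q = padicPlace q := hσ
  have hle := ker_locHom_one_le q F σ hσ'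
  have heq : RingHom.ker (locHom q F 1) = RingHom.ker (locHom q F σ) :=
    (isMaximal_ker_locHom q F 1).eq_of_le (isMaximal_ker_locHom q F σ).ne_top hle
  obtain ⟨h, s, hs, hσs⟩ := (placeAt_eq_iff q F 1 σ).mp (placeAt_eq_of_ker_eq q F σ heq)
  exact ⟨h, s, hs, by rw [hσs, mul_one]⟩

end Fermat.Agent.S56x.Cheb
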