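/-
helper89.  P-S56 (Taylor-Wiles primes), block (E) CHEBOTAREV, part 2: the prime picker.

From the Chebotarev theorem (`Lib/CFT/Cheb/Main.exists_frobenius_lift`: SOME Frobenius at SOME
valuation subring over a prime `q ∉ S` restricts to `σ` on `E`) and the valuation lemmas of
`ValConj.lean` we get the form needed by the frozen S56: a prime `q ∉ S` such that EVERY Frobenius
`φ` at EVERY valuation subring over `q` is conjugate to `σ` on `E`.

* `exists_prime_forall_frobenius` (E4), `exists_prime_forall_frobenius_hom` (E5),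
  `exists_primes_forall_frobenius` (E6: several pairwise distinct primes);
* `frobenius_fixes_rootOfUnity`, `dvd_sub_one_of_frobenius_fixes` (E7: `q ≡ 1 mod N`);
* `exists_primes_forall_frobenius_cong` (E4 + E6 + E7 packaged);
* `charpoly_eq_of_conj` (E8: characteristic polynomials of a residual representation).
-/
import Mathlib
import Fermat.Agent.S56x.Cheb.ValConj
import Fermat.Agent.Lib.CFT.Cheb.Main
import Fermat.Prelude.Def_GaloisRep_Residual

set_option autoImplicit false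

open scoped Pointwise

namespace Fermat.Agent.S56x.Cheb

open Fermat.Agent.Lib Fermat.Agent.Gateway.S31Red

local notation "Qb" => AlgebraicClosure ℚ
local notation "GQ" => (AlgebraicClosure ℚ ≃ₐ[ℚ] AlgebraicClosure ℚ)

/-- A normal subextension is stable under automorphisms. -/
theorem apply_mem_of_normal (E : IntermediateField ℚ Qb) [Normal ℚ E] (τ : GQ) {x : Qb}
    (hx : x ∈ E) : τ x ∈ E := by
  have h := AlgEquiv.restrictNormal_commutes τ E ⟨x, hx⟩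
  have h2 : τ x = ((τ.restrictNormal E) ⟨x, hx⟩ : Qb) := h.symm
  rw [h2]
  exact SetLike.coe_mem _

/-- **(E4)** The Chebotarev prime picker: for every finite Galois `E/ℚ` inside `ℚbar`, every `σ`
and every finite set `S` there is a prime `q ∉ S` at which EVERY Frobenius element (for every
valuation subring over `q`) is conjugate to `σ` on `E`. -/
theorem exists_prime_forall_frobenius (E : IntermediateField ℚ Qb) [FiniteDimensional ℚ E]
    [IsGalois ℚ E] (σ : GQ) (S : Finset ℕ) :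
    ∃ q : ℕ, q.Prime ∧ q ∉ S ∧ ∀ A : ValuationSubring Qb, A.LiesOverPrime q →
      ∀ φ : GQ, A.IsFrobeniusAt φ q → ∃ τ : GQ, ∀ x ∈ E, φ x = τ (σ (τ⁻¹ x)) := by
  have := Fermat.Agent.Lib.isGalois_algebraicClosure_rat
  obtain ⟨T, hT⟩ := exists_finset_frobenius_unique (L := Qb) E
  obtain ⟨q, hq, hqS, A₀, hA₀, φ₀, hφ₀, hres⟩ :=
    Fermat.Agent.Lib.CFT.Cheb.exists_frobenius_lift E σ (S ∪ T)
  rw [Finset.mem_union, not_or] at hqS
  refine ⟨q, hq, hqS.1, fun A hA φ hφ => ?_⟩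
  obtain ⟨τ, hτ⟩ := exists_smul_eq_of_liesOverPrime hq A₀ A hA₀ hA
  refine ⟨τ, fun x hx => ?_⟩
  have h1 : A.IsFrobeniusAt (τ * φ₀ * τ⁻¹) q := hτ ▸ isFrobeniusAt_smul hφ₀ τ
  have h2 := (hT q hq hqS.2 A hA).1 φ (τ * φ₀ * τ⁻¹) hφ h1 x hx
  rw [h2]
  show τ (φ₀ (τ⁻¹ x)) = τ (σ (τ⁻¹ x))
  rw [hres (τ⁻¹ x) (apply_mem_of_normal E τ⁻¹ hx)]

/-- If `φ` is conjugate to `σ` on the normal subextension `E`, then `(τ σ τ⁻¹)⁻¹ φ` fixes `E`. -/
theorem conj_inv_mul_fixes {E : IntermediateField ℚ Qb} {σ τ φ : GQ}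
    (h : ∀ x ∈ E, φ x = τ (σ (τ⁻¹ x))) :
    ∀ x ∈ E, ((τ * σ * τ⁻¹)⁻¹ * φ) x = x := by
  intro x hx
  show (τ * σ * τ⁻¹)⁻¹ (φ x) = x
  rw [h x hx]
  have : τ (σ (τ⁻¹ x)) = (τ * σ * τ⁻¹) x := rfl
  rw [this]
  exact (τ * σ * τ⁻¹).symm_apply_apply x

/-- **(E5)** Hom form of the picker: for a homomorphism `r` killing the automorphisms which fix
`E`, all Frobenius elements at the chosen prime are sent into the conjugacy class of `r σ`. -/
theorem exists_prime_forall_frobenius_hom {M : Type*} [Monoid M] (r : GQ →* M)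
    (E : IntermediateField ℚ Qb) [FiniteDimensional ℚ E] [IsGalois ℚ E]
    (hr : ∀ g : GQ, (∀ x ∈ E, g x = x) → r g = 1) (σ : GQ) (S : Finset ℕ) :
    ∃ q : ℕ, q.Prime ∧ q ∉ S ∧ ∀ A : ValuationSubring Qb, A.LiesOverPrime q →
      ∀ φ : GQ, A.IsFrobeniusAt φ q → ∃ τ : GQ, r φ = r τ * r σ * r τ⁻¹ := by
  obtain ⟨q, hq, hqS, h⟩ := exists_prime_forall_frobenius E σ S
  refine ⟨q, hq, hqS, fun A hA φ hφ => ?_⟩
  obtain ⟨τ, hτ⟩ := h A hA φ hφ
  refine ⟨τ, ?_⟩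
  have h1 := hr _ (conj_inv_mul_fixes hτ)
  have h2 : φ = (τ * σ * τ⁻¹) * ((τ * σ * τ⁻¹)⁻¹ * φ) := by group
  rw [h2, map_mul, h1, mul_one, map_mul, map_mul]

/-- Choosing pairwise distinct natural numbers outside a finite set, one for each index. -/
theorem exists_injective_of_forall_finset : ∀ {n : ℕ} (P : Fin n → ℕ → Prop),
    (∀ i, ∀ S : Finset ℕ, ∃ q, q ∉ S ∧ P i q) → ∀ S : Finset ℕ,
      ∃ qv : Fin n → ℕ, Function.Injective qv ∧ ∀ i, qv i ∉ S ∧ P i (qv i)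
  | 0, _, _, _ => ⟨Fin.elim0, fun i => i.elim0, fun i => i.elim0⟩
  | n + 1, P, h, S => by
    classical
    obtain ⟨qv', hinj, hqv'⟩ := exists_injective_of_forall_finset (fun i : Fin n => P i.succ)
      (fun i S => h i.succ S) S
    obtain ⟨q, hq, hPq⟩ := h 0 (S ∪ Finset.univ.image qv')
    rw [Finset.mem_union, not_or] at hq
    refine ⟨Fin.cons q qv', ?_, ?_⟩
    · rw [Fin.cons_injective_iff]
      refine ⟨?_, hinj⟩
      rintro ⟨i, hi⟩
      apply hq.2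
      rw [Finset.mem_image]
      exact ⟨i, Finset.mem_univ _, hi⟩
    · intro i
      refine Fin.cases ?_ (fun j => ?_) i
      · rw [Fin.cons_zero]
        exact ⟨hq.1, hPq⟩
      · rw [Fin.cons_succ]
        exact hqv' j

/-- **(E6)** Several pairwise distinct primes, one for each of the automorphisms `σ i`. -/
theorem exists_primes_forall_frobenius (E : IntermediateField ℚ Qb) [FiniteDimensional ℚ E]
    [IsGalois ℚ E] {n : ℕ} (σ : Fin n → GQ) (S : Finset ℕ) :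
    ∃ qv : Fin n → ℕ, Function.Injective qv ∧ ∀ i, (qv i).Prime ∧ qv i ∉ S ∧
      ∀ A : ValuationSubring Qb, A.LiesOverPrime (qv i) →
        ∀ φ : GQ, A.IsFrobeniusAt φ (qv i) → ∃ τ : GQ, ∀ x ∈ E, φ x = τ (σ i (τ⁻¹ x)) := by
  obtain ⟨qv, hinj, h⟩ := exists_injective_of_forall_finset
    (fun i q => q.Prime ∧ ∀ A : ValuationSubring Qb, A.LiesOverPrime q →
        ∀ φ : GQ, A.IsFrobeniusAt φ q → ∃ τ : GQ, ∀ x ∈ E, φ x = τ (σ i (τ⁻¹ x)))
    (fun i S => by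
      obtain ⟨q, hq, hqS, h⟩ := exists_prime_forall_frobenius E (σ i) S
      exact ⟨q, hqS, hq, h⟩) S
  exact ⟨qv, hinj, fun i => ⟨(h i).2.1, (h i).1, (h i).2.2⟩⟩

/-! ### Congruence conditions -/

/-- If `σ` fixes a primitive `N`-th root of unity `ζ ∈ E` and `φ` is conjugate to `σ` on the
normal subextension `E`, then `φ` fixes `ζ`. -/
theorem frobenius_fixes_rootOfUnity {E : IntermediateField ℚ Qb} {σ τ φ : GQ}
    (h : ∀ x ∈ E, φ x = τ (σ (τ⁻¹ x))) {N : ℕ} (hN : 0 < N) {ζ : Qb}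
    (hζ : IsPrimitiveRoot ζ N) (hζE : ζ ∈ E) (hσ : σ ζ = ζ) : φ ζ = ζ := by
  have : NeZero N := ⟨hN.ne'⟩
  rw [h ζ hζE]
  have h1 : (τ⁻¹ ζ) ^ N = 1 := by
    rw [← map_pow, hζ.pow_eq_one, map_one]
  obtain ⟨k, -, hk⟩ := hζ.eq_pow_of_pow_eq_one h1
  rw [← hk, map_pow, hσ, hk]
  exact τ.apply_symm_apply ζ

/-- **(E7)** A Frobenius element at `q ∤ N` which fixes a primitive `N`-th root of unity forces
`q ≡ 1 mod N`. -/
theorem dvd_sub_one_of_frobenius_fixes {q N : ℕ} (hq : q.Prime) (hqN : ¬ q ∣ N)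
    {A : ValuationSubring Qb} (hA : A.LiesOverPrime q) {φ : GQ} (hφ : A.IsFrobeniusAt φ q)
    {ζ : Qb} (hζ : IsPrimitiveRoot ζ N) (hfix : φ ζ = ζ) : N ∣ q - 1 := by
  have h1 : φ ζ = ζ ^ q := frob_apply_rootOfUnity hq hA hφ hqN hζ.pow_eq_one
  rw [hfix] at h1
  have hN0 : N ≠ 0 := by rintro rfl; exact hqN (dvd_zero _)
  have hζ0 : ζ ≠ 0 := hζ.ne_zero hN0
  have h2 : ζ ^ (q - 1) = 1 := by
    have h3 : ζ * ζ ^ (q - 1) = ζ * 1 := by
      rw [← pow_succ', Nat.sub_add_cancel hq.one_le, mul_one]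
      exact h1.symm
    exact mul_left_cancel₀ hζ0 h3
  exact hζ.dvd_of_pow_eq_one _ h2

/-- **(E4 + E6 + E7)** The Taylor-Wiles shape of the picker: pairwise distinct primes
`qv i ∉ S`, `qv i ≡ 1 mod N`, all of whose Frobenius elements are conjugate to `σ i` on `E`,
provided each `σ i` fixes the primitive `N`-th root of unity `ζ ∈ E` and `S` contains the prime
divisors of `N`. -/
theorem exists_primes_forall_frobenius_cong (E : IntermediateField ℚ Qb) [FiniteDimensional ℚ E]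
    [IsGalois ℚ E] {N : ℕ} (hN : 0 < N) {ζ : Qb} (hζ : IsPrimitiveRoot ζ N) (hζE : ζ ∈ E)
    {n : ℕ} (σ : Fin n → GQ) (hσ : ∀ i, σ i ζ = ζ) (S : Finset ℕ)
    (hS : ∀ q : ℕ, q.Prime → q ∣ N → q ∈ S) :
    ∃ qv : Fin n → ℕ, Function.Injective qv ∧ ∀ i, (qv i).Prime ∧ qv i ∉ S ∧ N ∣ qv i - 1 ∧
      ∀ A : ValuationSubring Qb, A.LiesOverPrime (qv i) →
        ∀ φ : GQ, A.IsFrobeniusAt φ (qv i) → ∃ τ : GQ, ∀ x ∈ E, φ x = τ (σ i (τ⁻¹ x)) := by
  obtain ⟨qv, hinj, h⟩ := exists_primes_forall_frobenius E σ S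
  refine ⟨qv, hinj, fun i => ⟨(h i).1, (h i).2.1, ?_, (h i).2.2⟩⟩
  obtain ⟨hq, hqS, hall⟩ := h i
  have hqN : ¬ qv i ∣ N := fun hdvd => hqS (hS _ hq hdvd)
  obtain ⟨A, hA⟩ := exists_valuationSubring_liesOverPrime (L := Qb) (qv i) hq
  obtain ⟨φ, hφ, -⟩ := exists_isFrobeniusAt_of_liesOverPrime hq A hA
  obtain ⟨τ, hτ⟩ := hall A hA φ hφ
  exact dvd_sub_one_of_frobenius_fixes hq hqN hA hφ hζ
    (frobenius_fixes_rootOfUnity hτ hN hζ hζE (hσ i))

/-! ### Characteristic polynomials -/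

/-- **(E8)** If the residual representation `ρbar` is trivial on the automorphisms fixing `E`
and `φ` is conjugate to `σ` on `E`, then `ρbar φ` and `ρbar σ` have the same characteristic
polynomial. -/
theorem charpoly_eq_of_conj {k : Type} [Field k] (ρbar : ResidualGaloisRep k)
    (E : IntermediateField ℚ Qb) (hE : ∀ g : GQ, (∀ x ∈ E, g x = x) → ρbar.ρ g = 1)
    {σ τ φ : GQ} (h : ∀ x ∈ E, φ x = τ (σ (τ⁻¹ x))) :
    LinearMap.charpoly (ρbar.ρ φ) = LinearMap.charpoly (ρbar.ρ σ) := by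
  have h1 := hE _ (conj_inv_mul_fixes h)
  have h2 : φ = (τ * σ * τ⁻¹) * ((τ * σ * τ⁻¹)⁻¹ * φ) := by group
  have h3 : ρbar.ρ φ = ρbar.ρ τ * ρbar.ρ σ * ρbar.ρ τ⁻¹ := by
    rw [h2, map_mul, h1, mul_one, map_mul, map_mul]
  have h4 : ρbar.ρ τ * ρbar.ρ τ⁻¹ = 1 := by rw [← map_mul, mul_inv_cancel, map_one]
  have h5 : ρbar.ρ τ⁻¹ * ρbar.ρ τ = 1 := by rw [← map_mul, inv_mul_cancel, map_one]
  let e : ρbar.V ≃ₗ[k] ρbar.V := LinearEquiv.ofLinearMap (ρbar.ρ τ) (ρbar.ρ τ⁻¹) h4 h5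
  have h6 : ρbar.ρ φ = e.conj (ρbar.ρ σ) := by
    rw [h3]
    ext v
    rfl
  rw [h6, LinearEquiv.charpoly_conj]

end Fermat.Agent.S56x.Cheb
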