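/-
helper89.  P-S56 (Taylor-Wiles primes), block (E) CHEBOTAREV, part 3: the (KILL) export in the
formalism of the Prelude (`groupCohomology.H1`, `locRes`, `primeLocalToGlobal`).

Given a `1`-cocycle `c` of `Gal(ℚbar/ℚ)` with values in a Galois module `M`, of finite level
`E` (`E/ℚ` finite Galois, `M` and `c` trivial / constant modulo `E.fixingSubgroup`), and `σ` with
`c σ ∉ (σ - 1) M`, Chebotarev produces a prime `q` outside any finite set such that every Frobenius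
at `q` is conjugate to `σ` on `E` and the restriction of the class of `c` to the decomposition
group at `q` (the local Galois group `Gal(ℚ_q bar/ℚ_q)`) is NON-zero.

The local input is `DecompDense.lean`: the image of the local Galois group is dense in the
decomposition group of `padicPlace q`.
-/
import Mathlib
import Fermat.Agent.S56x.Cheb.Picker
import Fermat.Agent.S56x.Cheb.DecompDense
import Fermat.Agent.S48x.Lift.Place
import Fermat.Prelude.Def_ExtEndgame_ProductionDatum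
import Fermat.Prelude.Def_GroupCohomology_Selmer

set_option autoImplicit false

open CategoryTheory groupCohomology ExtCitation

namespace Fermat.Agent.S56x.Cheb

open Fermat.Agent.Lib

local notation "Qb" => AlgebraicClosure ℚ
local notation "GQ" => (AlgebraicClosure ℚ ≃ₐ[ℚ] AlgebraicClosure ℚ)

/-! ### Abstract cocycle lemmas -/

section Abstract

variable {k G : Type} [CommRing k] [Group G]

/-- The condition `c σ ∈ (σ - 1) M` is invariant under conjugation of `σ`. -/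
theorem cocycle_conj_mem_range (M : Rep k G) (c : cocycles₁ M) (σ τ : G)
    (h : c σ ∈ LinearMap.range (M.ρ σ - 1)) :
    c (τ * σ * τ⁻¹) ∈ LinearMap.range (M.ρ (τ * σ * τ⁻¹) - 1) := by
  obtain ⟨m, hm⟩ := h
  rw [LinearMap.sub_apply, Module.End.one_apply] at hm
  have hc := (mem_cocycles₁_iff c).1 c.2
  refine ⟨M.ρ τ m - c τ, ?_⟩
  rw [LinearMap.sub_apply, Module.End.one_apply]
  have h1 : c (τ * σ * τ⁻¹) = M.ρ (τ * σ) (c τ⁻¹) + (M.ρ τ (c σ) + c τ) := by
    rw [hc (τ * σ) τ⁻¹, hc τ σ]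
  have h2 : M.ρ (τ * σ) (c τ⁻¹) = - M.ρ (τ * σ * τ⁻¹) (c τ) := by
    have h3 : M.ρ τ (c τ⁻¹) = - c τ := cocycles₁_map_inv c τ
    have h4 : c τ⁻¹ = - M.ρ τ⁻¹ (c τ) := by
      have := congrArg (M.ρ τ⁻¹) h3
      rw [← Module.End.mul_apply, ← map_mul, inv_mul_cancel, map_one, Module.End.one_apply,
        map_neg] at this
      exact this
    rw [h4, map_neg, ← Module.End.mul_apply, ← map_mul]
  have h6 : M.ρ (τ * σ * τ⁻¹) (M.ρ τ m) = M.ρ τ (M.ρ σ m) := by
    rw [← Module.End.mul_apply, ← map_mul, ← Module.End.mul_apply, ← map_mul]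
    have h5 : τ * σ * τ⁻¹ * τ = τ * σ := by group
    rw [h5]
  rw [h1, h2, ← hm, map_sub, map_sub, h6]
  abel

theorem cocycle_conj_mem_range_iff (M : Rep k G) (c : cocycles₁ M) (σ τ : G) :
    c (τ * σ * τ⁻¹) ∈ LinearMap.range (M.ρ (τ * σ * τ⁻¹) - 1) ↔
      c σ ∈ LinearMap.range (M.ρ σ - 1) := by
  refine ⟨fun h => ?_, cocycle_conj_mem_range M c σ τ⟩
  have := cocycle_conj_mem_range M c (τ * σ * τ⁻¹) τ⁻¹ h
  have h1 : τ⁻¹ * (τ * σ * τ⁻¹) * τ⁻¹⁻¹ = σ := by group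
  rwa [h1] at this

/-- If `c (f h) ∉ (f h - 1) M` for some `h`, the restriction of the class of `c` along `f` is
non-zero. -/
theorem map_H1π_ne_zero_of_not_mem_range {k G H : Type} [Field k] [Group G] [Group H] (f : H →* G)
    (M : Rep k G) (c : cocycles₁ M) (h : H)
    (hh : c (f h) ∉ LinearMap.range (M.ρ (f h) - 1)) :
    (groupCohomology.map f (𝟙 (Rep.res f M)) 1).hom ((H1π M).hom c) ≠ 0 := by
  intro h0
  have h1 : (groupCohomology.map f (𝟙 (Rep.res f M)) 1).hom ((H1π M).hom c) =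
      (H1π (Rep.res f M)).hom ((mapCocycles₁ f (𝟙 (Rep.res f M))).hom c) :=
    H1π_comp_map_apply f (𝟙 (Rep.res f M)) c
  rw [h1] at h0
  obtain ⟨m, hm⟩ := (H1π_eq_zero_iff _).mp h0
  apply hh
  refine ⟨m, ?_⟩
  have h3 := congr_fun hm h
  simp only [d₀₁_hom_apply] at h3
  have h4 : ((mapCocycles₁ f (𝟙 (Rep.res f M))).hom c) h = c (f h) := rfl
  rw [h4] at h3
  rw [LinearMap.sub_apply, Module.End.one_apply]
  exact h3

end Abstract

/-! ### (KILL) -/

/-- The local non-vanishing criterion at a prime `q` all of whose Frobenius elements are conjugate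
to `σ` on `E`. -/
theorem locRes_ne_zero_of_frobenius_conj {k : Type} [Field k] (M : Rep k GQ)
    (c : cocycles₁ M) (E : IntermediateField ℚ Qb) [FiniteDimensional ℚ E]
    (hME : ∀ s ∈ E.fixingSubgroup, M.ρ s = 1)
    (hcE : ∀ g s : GQ, s ∈ E.fixingSubgroup → c (g * s) = c g)
    (σ : GQ) (hσ : c σ ∉ LinearMap.range (M.ρ σ - 1)) (q : Nat.Primes)
    (hq : ∀ A : ValuationSubring Qb, A.LiesOverPrime q → ∀ φ : GQ, A.IsFrobeniusAt φ q →
      ∃ τ : GQ, ∀ x ∈ E, φ x = τ (σ (τ⁻¹ x))) :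
    (locRes (fun q : Nat.Primes => primeLocalToGlobal q) M q).hom ((H1π M).hom c) ≠ 0 := by
  have : Fact (q : ℕ).Prime := ⟨q.2⟩
  have hA := Fermat.Agent.S48x.Lift.padicPlace_liesOverPrime (q : ℕ)
  obtain ⟨φ, hφ, -⟩ := exists_isFrobeniusAt_of_liesOverPrime q.2 (padicPlace (q : ℕ)) hA
  obtain ⟨τ, hτ⟩ := hq _ hA φ hφ
  obtain ⟨h, s, hs, hφs⟩ :=
    exists_local_mul_of_mem_decomposition (q : ℕ) E φ hφ.mem_decompositionSubgroup
  -- `g := (τ σ τ⁻¹)⁻¹ φ` fixes `E`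
  have hg : (τ * σ * τ⁻¹)⁻¹ * φ ∈ E.fixingSubgroup := by
    rw [IntermediateField.mem_fixingSubgroup_iff]
    exact conj_inv_mul_fixes hτ
  have hloc : localGaloisToGlobal (q : ℕ) h = (τ * σ * τ⁻¹) * (((τ * σ * τ⁻¹)⁻¹ * φ) * s⁻¹) := by
    rw [hφs]; group
  have hmem : ((τ * σ * τ⁻¹)⁻¹ * φ) * s⁻¹ ∈ E.fixingSubgroup :=
    mul_mem hg (inv_mem hs)
  have hc1 : c (localGaloisToGlobal (q : ℕ) h) = c (τ * σ * τ⁻¹) := by
    rw [hloc, hcE _ _ hmem]
  have hρ1 : M.ρ (localGaloisToGlobal (q : ℕ) h) = M.ρ (τ * σ * τ⁻¹) := by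
    rw [hloc, map_mul, hME _ hmem, mul_one]
  have hnot : c (localGaloisToGlobal (q : ℕ) h) ∉
      LinearMap.range (M.ρ (localGaloisToGlobal (q : ℕ) h) - 1) := by
    rw [hc1, hρ1, cocycle_conj_mem_range_iff]
    exact hσ
  exact map_H1π_ne_zero_of_not_mem_range (primeLocalToGlobal q) M c h hnot

/-- **(KILL)** For a cocycle `c` of level `E` and `σ` with `c σ ∉ (σ - 1) M`, fixing a primitive
`N`-th root of unity `ζ ∈ E`: there is a prime `q ∉ S`, `q ≡ 1 mod N`, all of whose Frobenius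
elements are conjugate to `σ` on `E`, such that the class of `c` has non-zero restriction to the
local Galois group at `q`. -/
theorem exists_prime_kill {k : Type} [Field k] (M : Rep k GQ)
    (c : cocycles₁ M) (E : IntermediateField ℚ Qb) [FiniteDimensional ℚ E] [IsGalois ℚ E]
    (hME : ∀ s ∈ E.fixingSubgroup, M.ρ s = 1)
    (hcE : ∀ g s : GQ, s ∈ E.fixingSubgroup → c (g * s) = c g)
    {N : ℕ} (hN : 0 < N) {ζ : Qb} (hζ : IsPrimitiveRoot ζ N) (hζE : ζ ∈ E)
    (σ : GQ) (hσζ : σ ζ = ζ) (hσ : c σ ∉ LinearMap.range (M.ρ σ - 1))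
    (S : Finset ℕ) (hS : ∀ q : ℕ, q.Prime → q ∣ N → q ∈ S) :
    ∃ q : Nat.Primes, (q : ℕ) ∉ S ∧ N ∣ (q : ℕ) - 1 ∧
      (∀ A : ValuationSubring Qb, A.LiesOverPrime q → ∀ φ : GQ, A.IsFrobeniusAt φ q →
        ∃ τ : GQ, ∀ x ∈ E, φ x = τ (σ (τ⁻¹ x))) ∧
      (locRes (fun q : Nat.Primes => primeLocalToGlobal q) M q).hom ((H1π M).hom c) ≠ 0 := by
  obtain ⟨qv, -, h⟩ := exists_primes_forall_frobenius_cong E hN hζ hζE
    (fun _ : Fin 1 => σ) (fun _ => hσζ) S hS
  obtain ⟨hq, hqS, hdvd, hall⟩ := h 0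
  refine ⟨⟨qv 0, hq⟩, hqS, hdvd, hall, ?_⟩
  exact locRes_ne_zero_of_frobenius_conj M c E hME hcE σ hσ ⟨qv 0, hq⟩ hall

end Fermat.Agent.S56x.Cheb
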