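/-
P-S56 (Taylor–Wiles primes), block (E) CHEBOTAREV, consumer glue (helper65), on top of helper89's
`S56x/Cheb/Picker.lean`.

The three bullet conditions of the frozen S56 (`S56x.IsTWFamily`, helper72's
`S56x/Assembly/TopLevel.lean`) for a family of primes produced by the Chebotarev picker from
elements `σ i` of the absolute Galois group which fix the `p^(n+1)`-th roots of unity and have two
distinct eigenvalues in `k` under `ρbar`:

* `exists_finite_galois_ge`: a finite Galois subextension of `ℚbar` containing a given finite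
  subextension and finitely many given elements;
* `exists_primitiveRoot_qbar`;
* `exists_isTWFamily_on`: for a given finite Galois `E` through which `ρbar` factors and which
  contains a primitive `p^(n+1)`-th root of unity: a Taylor–Wiles family `qv` outside any finite
  set `T₀`, keeping the information that all Frobenius elements over `qv i` are conjugate to `σ i`
  on `E`;
* `exists_isTWFamily`: the same with `E` constructed (containing any given finite subextension
  `E₀`, e.g. the field cut out by a cocycle).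
-/
import Mathlib
import Fermat.Agent.S56x.Cheb.Picker
import Fermat.Agent.S56x.Assembly.TopLevel

set_option autoImplicit false
set_option linter.style.haveILetI false

open Polynomial

namespace Fermat.Agent.S56x.Cheb

local notation "Qb" => AlgebraicClosure ℚ
local notation "GQ" => (AlgebraicClosure ℚ ≃ₐ[ℚ] AlgebraicClosure ℚ)

/-- A finite Galois subextension of `ℚbar` containing a given finite subextension and finitely
many given elements. -/
theorem exists_finite_galois_ge (L : IntermediateField ℚ Qb) [FiniteDimensional ℚ L]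
    (s : Finset Qb) :
    ∃ E : IntermediateField ℚ Qb, FiniteDimensional ℚ E ∧ IsGalois ℚ E ∧ L ≤ E ∧
      ∀ x ∈ s, x ∈ E := by
  haveI : IsGalois ℚ Qb := Fermat.Agent.Lib.isGalois_algebraicClosure_rat
  haveI : Normal ℚ Qb := IsGalois.to_normal
  haveI : Algebra.IsAlgebraic ℚ Qb := Normal.toIsAlgebraic
  let L' : IntermediateField ℚ Qb := L ⊔ IntermediateField.adjoin ℚ (s : Set Qb)
  haveI : FiniteDimensional ℚ (IntermediateField.adjoin ℚ (s : Set Qb)) :=
    IntermediateField.finiteDimensional_adjoin fun x _ =>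
      (Algebra.IsIntegral.isIntegral x)
  haveI : FiniteDimensional ℚ L' := IntermediateField.finiteDimensional_sup _ _
  have hN : Normal ℚ (IntermediateField.normalClosure ℚ L' Qb) :=
    normalClosure.normal ℚ L' Qb
  refine ⟨IntermediateField.normalClosure ℚ L' Qb, inferInstance, ?_, ?_, ?_⟩
  · exact IsGalois.mk
  · exact le_trans le_sup_left (IntermediateField.le_normalClosure L')
  · intro x hx
    exact IntermediateField.le_normalClosure L'
      (le_sup_right (a := L) (IntermediateField.subset_adjoin ℚ _ hx))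

/-- `ℚbar` contains a primitive `N`-th root of unity. -/
theorem exists_primitiveRoot_qbar (N : ℕ) [NeZero N] : ∃ ζ : Qb, IsPrimitiveRoot ζ N := by
  haveI : NeZero ((N : ℕ) : Qb) := ⟨Nat.cast_ne_zero.mpr (NeZero.ne N)⟩
  exact HasEnoughRootsOfUnity.exists_primitiveRoot Qb N

section Rep

variable {k : Type} [Field k] (ρbar : ResidualGaloisRep k)

/-- **A Taylor–Wiles family from the Chebotarev picker**, on a given finite Galois `E`. -/
theorem exists_isTWFamily_on (E : IntermediateField ℚ Qb) [FiniteDimensional ℚ E]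
    [IsGalois ℚ E] (hE : ∀ g : GQ, (∀ x ∈ E, g x = x) → ρbar.ρ g = 1)
    {p : ℕ} (hp : p.Prime) (S : Finset ℕ) (n r : ℕ)
    {ζ : Qb} (hζ : IsPrimitiveRoot ζ (p ^ (n + 1))) (hζE : ζ ∈ E)
    (σv : Fin r → GQ) (hσζ : ∀ i, σv i ζ = ζ)
    (hσ : ∀ i, ∃ α β : k, α ≠ β ∧
      LinearMap.charpoly (ρbar.ρ (σv i)) = (X - C α) * (X - C β))
    (T₀ : Finset ℕ) :
    ∃ qv : Fin r → ℕ, IsTWFamily ρbar p S n r qv ∧ (∀ i, qv i ∉ T₀) ∧
      ∀ i, ∀ A : ValuationSubring Qb, A.LiesOverPrime (qv i) →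
        ∀ φ : GQ, A.IsFrobeniusAt φ (qv i) → ∃ τ : GQ, ∀ x ∈ E, φ x = τ (σv i (τ⁻¹ x)) := by
  obtain ⟨qv, hinj, hqv⟩ := exists_primes_forall_frobenius_cong E
    (pow_pos hp.pos (n + 1)) hζ hζE σv hσζ (insert p (S ∪ T₀))
    (fun q hq hd => by
      rw [(Nat.prime_dvd_prime_iff_eq hq hp).mp (hq.dvd_of_dvd_pow hd)]
      exact Finset.mem_insert_self _ _)
  refine ⟨qv, ⟨hinj, fun i => ⟨(hqv i).1, fun hm => (hqv i).2.1 ?_, (hqv i).2.2.1⟩,
    fun i P hP φ hφ => ?_⟩, fun i hm => (hqv i).2.1 ?_, fun i => (hqv i).2.2.2⟩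
  · exact Finset.mem_insert_of_mem (Finset.mem_union_left _ hm)
  · obtain ⟨τ, hτ⟩ := (hqv i).2.2.2 P hP φ hφ
    obtain ⟨α, β, hαβ, hc⟩ := hσ i
    exact ⟨α, β, hαβ, (charpoly_eq_of_conj ρbar E hE hτ).trans hc⟩
  · exact Finset.mem_insert_of_mem (Finset.mem_union_right _ hm)

/-- **A Taylor–Wiles family from the Chebotarev picker**: for elements `σ i` fixing all
`p^(n+1)`-th roots of unity, with two distinct eigenvalues in `k` under `ρbar`, there are a finite
Galois `E ⊇ E₀` through which `ρbar` factors and a Taylor–Wiles family `qv` of level `n`, outside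
any given finite set `T₀`, such that all Frobenius elements over `qv i` are conjugate to `σ i` on
`E`. -/
theorem exists_isTWFamily {p : ℕ} (hp : p.Prime) (S : Finset ℕ) (n r : ℕ)
    (E₀ : IntermediateField ℚ Qb) [FiniteDimensional ℚ E₀]
    (σv : Fin r → GQ) (hσζ : ∀ i, ∀ ζ : Qb, ζ ^ (p ^ (n + 1)) = 1 → σv i ζ = ζ)
    (hσ : ∀ i, ∃ α β : k, α ≠ β ∧
      LinearMap.charpoly (ρbar.ρ (σv i)) = (X - C α) * (X - C β))
    (T₀ : Finset ℕ) :
    ∃ E : IntermediateField ℚ Qb, FiniteDimensional ℚ E ∧ IsGalois ℚ E ∧ E₀ ≤ E ∧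
      (∀ g : GQ, (∀ x ∈ E, g x = x) → ρbar.ρ g = 1) ∧
      ∃ qv : Fin r → ℕ, IsTWFamily ρbar p S n r qv ∧ (∀ i, qv i ∉ T₀) ∧
        ∀ i, ∀ A : ValuationSubring Qb, A.LiesOverPrime (qv i) →
          ∀ φ : GQ, A.IsFrobeniusAt φ (qv i) →
            ∃ τ : GQ, ∀ x ∈ E, φ x = τ (σv i (τ⁻¹ x)) := by
  obtain ⟨L, hLfd, hL⟩ := ρbar.factorsThroughFiniteLevel
  haveI : NeZero (p ^ (n + 1)) := ⟨(pow_pos hp.pos (n + 1)).ne'⟩
  obtain ⟨ζ, hζ⟩ := exists_primitiveRoot_qbar (p ^ (n + 1))
  haveI : FiniteDimensional ℚ (L ⊔ E₀ : IntermediateField ℚ Qb) :=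
    IntermediateField.finiteDimensional_sup _ _
  obtain ⟨E, hEfd, hEgal, hLE, hζE⟩ := exists_finite_galois_ge (L ⊔ E₀) {ζ}
  have hE : ∀ g : GQ, (∀ x ∈ E, g x = x) → ρbar.ρ g = 1 := fun g hg =>
    hL g fun x hx => hg x (hLE (le_sup_left (a := L) hx))
  obtain ⟨qv, h1, h2, h3⟩ := exists_isTWFamily_on ρbar E hE hp S n r hζ
    (hζE ζ (Finset.mem_singleton_self ζ)) σv (fun i => hσζ i ζ hζ.pow_eq_one) hσ T₀
  exact ⟨E, hEfd, hEgal, le_trans le_sup_right hLE, hE, qv, h1, h2, h3⟩

end Rep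

end Fermat.Agent.S56x.Cheb
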